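/-
S25 ATLAS/DIV (helper2868): the hypotheses of `chartPoint` for the family chart `𝒞.chart R`
(`B_i = R ⊗[k] A_i`), `k` algebraically closed:

* `isDomain_tensorProduct`  : the domain lemma (tensor product of two `k`-domains is a domain);
* `chart_isPrime_map`       : `𝔪 B₁` is prime for every maximal ideal `𝔪 ⊂ R` (closed fibres of
  `U₁ × Spec R → Spec R` are integral);
* `chart_isPolyFree`        : `B₁` is free of finite rank over `R[f]` (helper5050 A0-FREE);
* `chart_finite₂`           : `B₂` is finite over `R[g]`.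
-/
import Fermat.Agent.S25.Defs
import Fermat.Agent.S25.ATLAS.DIV.H2868.A0Free
import Fermat.Agent.S25.ATLAS.DIV.H2868.PolyFree

set_option autoImplicit false
set_option linter.style.haveILetI false

universe u

namespace Fermat.Agent.S25.ATLAS.DIV.H2868

open scoped TensorProduct
open Polynomial

/-- Over an algebraically closed field, `k`-points separate elements of a reduced finitely
generated algebra. -/
theorem exists_algHom_ne_zero {k A : Type*} [Field k] [IsAlgClosed k] [CommRing A] [Algebra k A]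
    [Algebra.FiniteType k A] [IsReduced A] {a : A} (ha : a ≠ 0) :
    ∃ φ : A →ₐ[k] k, φ a ≠ 0 := by
  haveI : IsJacobsonRing A := isJacobsonRing_of_finiteType (A := k)
  have hbot : (⊥ : Ideal A).jacobson = ⊥ := by
    rw [← Ideal.radical_eq_jacobson]
    exact nilradical_eq_zero A
  have hnot : a ∉ (⊥ : Ideal A).jacobson := by rw [hbot]; simpa using ha
  rw [Ideal.jacobson, Ideal.mem_sInf] at hnot
  push Not at hnot
  obtain ⟨m, ⟨-, hm⟩, ham⟩ := hnot
  haveI := hm
  letI : Field (A ⧸ m) := Ideal.Quotient.field m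
  haveI : Algebra.FiniteType k (A ⧸ m) :=
    Algebra.FiniteType.of_surjective (Ideal.Quotient.mkₐ k m) (Ideal.Quotient.mkₐ_surjective k m)
  haveI : Module.Finite k (A ⧸ m) := finite_of_finite_type_of_isJacobsonRing k (A ⧸ m)
  have hbij : Function.Bijective (algebraMap k (A ⧸ m)) :=
    IsAlgClosed.algebraMap_bijective_of_isIntegral
  let e : k ≃ₐ[k] (A ⧸ m) := AlgEquiv.ofBijective (Algebra.ofId k (A ⧸ m)) hbij
  refine ⟨(e.symm : (A ⧸ m) →ₐ[k] k).comp (Ideal.Quotient.mkₐ k m), ?_⟩
  intro h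
  apply ham
  have : (Ideal.Quotient.mkₐ k m) a = 0 := by
    have h' : e.symm ((Ideal.Quotient.mkₐ k m) a) = 0 := h
    simpa using h'
  exact Ideal.Quotient.eq_zero_iff_mem.mp this

/-- The domain lemma: over an algebraically closed field the tensor product of two domains is a
domain. -/
theorem isDomain_tensorProduct (k A B : Type*) [Field k] [IsAlgClosed k] [CommRing A] [CommRing B]
    [Algebra k A] [Algebra k B] [IsDomain A] [IsDomain B] : IsDomain (A ⊗[k] B) := by
  classical
  haveI : Nontrivial (A ⊗[k] B) :=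
    (Algebra.TensorProduct.includeLeft_injective (R := k) (S := k) (A := A) (B := B)
      (FaithfulSMul.algebraMap_injective k B)).nontrivial
  let b := Module.Free.chooseBasis k B
  let 𝓑 := Algebra.TensorProduct.basis A b
  have key : ∀ x y : A ⊗[k] B, x * y = 0 → x ≠ 0 → y = 0 := by
    intro x y hxy hx
    set cx := 𝓑.repr x with hcx
    set cy := 𝓑.repr y with hcy
    let S : Finset A := cx.support.image cx ∪ cy.support.image cy
    let A' : Subalgebra k A := Algebra.adjoin k (S : Set A)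
    haveI : Algebra.FiniteType k A' :=
      (Subalgebra.fg_iff_finiteType A').mp (Subalgebra.fg_adjoin_finset S)
    have hmemx : ∀ i, cx i ∈ A' := by
      intro i
      by_cases hi : i ∈ cx.support
      · exact Algebra.subset_adjoin (Finset.mem_coe.mpr (Finset.mem_union_left _
          (Finset.mem_image_of_mem _ hi)))
      · rw [Finsupp.notMem_support_iff.mp hi]; exact zero_mem _
    have hmemy : ∀ i, cy i ∈ A' := by
      intro i
      by_cases hi : i ∈ cy.support
      · exact Algebra.subset_adjoin (Finset.mem_coe.mpr (Finset.mem_union_right _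
          (Finset.mem_image_of_mem _ hi)))
      · rw [Finsupp.notMem_support_iff.mp hi]; exact zero_mem _
    let x' : A' ⊗[k] B := ∑ i ∈ cx.support, (⟨cx i, hmemx i⟩ : A') ⊗ₜ[k] b i
    let y' : A' ⊗[k] B := ∑ i ∈ cy.support, (⟨cy i, hmemy i⟩ : A') ⊗ₜ[k] b i
    let incl : A' ⊗[k] B →ₐ[k] A ⊗[k] B := Algebra.TensorProduct.map A'.val (AlgHom.id k B)
    have hincl : Function.Injective incl := by
      have : Function.Injective (LinearMap.rTensor B (A'.val.toLinearMap)) :=
        Module.Flat.rTensor_preserves_injective_linearMap _ Subtype.val_injective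
      exact this
    have hrepr : ∀ z : A ⊗[k] B, ∑ i ∈ (𝓑.repr z).support, (𝓑.repr z) i ⊗ₜ[k] b i = z := by
      intro z
      conv_rhs => rw [← 𝓑.linearCombination_repr z]
      rw [Finsupp.linearCombination_apply, Finsupp.sum]
      refine Finset.sum_congr rfl fun i _ => ?_
      rw [Algebra.TensorProduct.basis_apply, TensorProduct.smul_tmul', smul_eq_mul, mul_one]
    have hx' : incl x' = x := by
      simp only [x', incl, map_sum, Algebra.TensorProduct.map_tmul, AlgHom.id_apply,
        Subalgebra.coe_val]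
      exact hrepr x
    have hy' : incl y' = y := by
      simp only [y', incl, map_sum, Algebra.TensorProduct.map_tmul, AlgHom.id_apply,
        Subalgebra.coe_val]
      exact hrepr y
    have hx'y' : x' * y' = 0 := by
      apply hincl
      rw [map_mul, hx', hy', hxy, map_zero]
    -- specialisation at a `k`-point
    have hspec : ∀ φ : A' →ₐ[k] k, ∀ i j, φ (⟨cx i, hmemx i⟩ * ⟨cy j, hmemy j⟩) = 0 := by
      intro φ i j
      let Ψ : A' ⊗[k] B →ₐ[k] B :=
        (Algebra.TensorProduct.lid k B : k ⊗[k] B →ₐ[k] B).comp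
          (Algebra.TensorProduct.map φ (AlgHom.id k B))
      have hΨx : Ψ x' = ∑ i ∈ cx.support, φ ⟨cx i, hmemx i⟩ • b i := by
        simp [Ψ, x']
      have hΨy : Ψ y' = ∑ i ∈ cy.support, φ ⟨cy i, hmemy i⟩ • b i := by
        simp [Ψ, y']
      have h0 : Ψ x' * Ψ y' = 0 := by rw [← map_mul, hx'y', map_zero]
      have hli := b.linearIndependent
      rw [linearIndependent_iff'] at hli
      rw [map_mul]
      rcases mul_eq_zero.mp h0 with h | h
      · rw [hΨx] at h
        by_cases hi : i ∈ cx.support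
        · rw [hli _ _ h i hi, zero_mul]
        · have : (⟨cx i, hmemx i⟩ : A') = 0 := Subtype.ext (Finsupp.notMem_support_iff.mp hi)
          rw [this, map_zero, zero_mul]
      · rw [hΨy] at h
        by_cases hj : j ∈ cy.support
        · rw [hli _ _ h j hj, mul_zero]
        · have : (⟨cy j, hmemy j⟩ : A') = 0 := Subtype.ext (Finsupp.notMem_support_iff.mp hj)
          rw [this, map_zero, mul_zero]
    have hprod : ∀ i j, cx i * cy j = 0 := by
      intro i j
      by_contra hne
      have hne' : (⟨cx i, hmemx i⟩ * ⟨cy j, hmemy j⟩ : A') ≠ 0 := by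
        intro h
        exact hne (congrArg Subtype.val h)
      obtain ⟨φ, hφ⟩ := exists_algHom_ne_zero (k := k) hne'
      exact hφ (hspec φ i j)
    have hcx0 : cx ≠ 0 := by
      intro h
      apply hx
      have : 𝓑.repr x = 0 := h
      simpa using this
    obtain ⟨i, hi⟩ := Finsupp.ne_iff.mp hcx0
    have hcy0 : cy = 0 := by
      ext j
      have := hprod i j
      rcases mul_eq_zero.mp this with h | h
      · exact absurd h (by simpa using hi)
      · simpa using h
    have : 𝓑.repr y = 0 := hcy0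
    simpa using this
  haveI : NoZeroDivisors (A ⊗[k] B) := ⟨fun {x y} hxy => by
    by_cases hx : x = 0
    · exact Or.inl hx
    · exact Or.inr (key x y hxy hx)⟩
  exact NoZeroDivisors.to_isDomain _

section chart

variable {k : Type u} [Field k] [IsAlgClosed k] (𝒞 : CurveData k) (R : Type u) [CommRing R]
  [Algebra k R]

/-- Closed fibres of `U_A × Spec R → Spec R` are integral: `𝔪 (R ⊗ A)` is prime for `𝔪` maximal
and `A` a `k`-domain. -/
theorem isPrime_map_tensor {A : Type u} [CommRing A] [Algebra k A] [IsDomain A] (𝔪 : Ideal R)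
    (h𝔪 : 𝔪.IsMaximal) : (𝔪.map (algebraMap R (R ⊗[k] A))).IsPrime := by
  haveI := h𝔪
  letI : Field (R ⧸ 𝔪) := Ideal.Quotient.field 𝔪
  haveI : IsDomain ((R ⧸ 𝔪) ⊗[k] A) := isDomain_tensorProduct k (R ⧸ 𝔪) A
  have hker : RingHom.ker (Algebra.TensorProduct.map (Ideal.Quotient.mkₐ k 𝔪) (AlgHom.id k A)) =
      𝔪.map (algebraMap R (R ⊗[k] A)) := by
    have h1 := Algebra.TensorProduct.rTensor_ker (R := k) (S := k) (C := A)
      (Ideal.Quotient.mkₐ k 𝔪) (Ideal.Quotient.mkₐ_surjective k 𝔪)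
    have hk : RingHom.ker (Ideal.Quotient.mkₐ k 𝔪) = 𝔪 := by
      ext x
      rw [RingHom.mem_ker]
      exact Ideal.Quotient.eq_zero_iff_mem
    rw [h1, hk]
    apply le_antisymm
    · rw [Ideal.map_le_iff_le_comap]
      intro x hx
      rw [Ideal.mem_comap]
      exact Ideal.mem_map_of_mem (algebraMap R (R ⊗[k] A)) hx
    · rw [Ideal.map_le_iff_le_comap]
      intro x hx
      rw [Ideal.mem_comap]
      exact Ideal.mem_map_of_mem (Algebra.TensorProduct.includeLeft : R →ₐ[k] R ⊗[k] A) hx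
  rw [← hker]
  exact RingHom.ker_isPrime _

/-- `𝔪 B₁` is prime for every maximal ideal `𝔪` of `R`. -/
theorem chart_isPrime_map₁ (𝔪 : Ideal R) (h𝔪 : 𝔪.IsMaximal) :
    (𝔪.map (algebraMap R (𝒞.chart R).B₁)).IsPrime :=
  haveI := 𝒞.dom₁
  isPrime_map_tensor R 𝔪 h𝔪

/-- `𝔪 B₂` is prime for every maximal ideal `𝔪` of `R`. -/
theorem chart_isPrime_map₂ (𝔪 : Ideal R) (h𝔪 : 𝔪.IsMaximal) :
    (𝔪.map (algebraMap R (𝒞.chart R).B₂)).IsPrime :=
  haveI := 𝒞.dom₂
  isPrime_map_tensor R 𝔪 h𝔪

/-- `B₁ = R ⊗ A₁` is free of finite rank over `R[f]`. -/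
theorem chart_isPolyFree₁ : IsPolyFree R (𝒞.chart R).f := by
  obtain ⟨n, b, -, -, hb⟩ := A0Free.exists_polyBasis₁ 𝒞
  refine ⟨n, fun i => (1 : R) ⊗ₜ[k] b i, ?_⟩
  have heq : (fun c : Fin n → R[X] =>
      ∑ i, aeval ((1 : R) ⊗ₜ[k] 𝒞.f) (c i) * ((1 : R) ⊗ₜ[k] b i)) =
      ⇑(A0Free.polyMap k R 𝒞.f b) :=
    funext fun c => (A0Free.polyMap_apply k R 𝒞.f b c).symm
  change Function.Bijective (fun c : Fin n → R[X] =>
      ∑ i, aeval ((1 : R) ⊗ₜ[k] 𝒞.f) (c i) * ((1 : R) ⊗ₜ[k] b i))
  rw [heq]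
  exact hb R

/-- `B₂ = R ⊗ A₂` is free of finite rank over `R[g]`. -/
theorem chart_isPolyFree₂ : IsPolyFree R (𝒞.chart R).g := by
  obtain ⟨n, b, -, -, hb⟩ := A0Free.exists_polyBasis₂ 𝒞
  refine ⟨n, fun i => (1 : R) ⊗ₜ[k] b i, ?_⟩
  have heq : (fun c : Fin n → R[X] =>
      ∑ i, aeval ((1 : R) ⊗ₜ[k] 𝒞.g) (c i) * ((1 : R) ⊗ₜ[k] b i)) =
      ⇑(A0Free.polyMap k R 𝒞.g b) :=
    funext fun c => (A0Free.polyMap_apply k R 𝒞.g b c).symm
  change Function.Bijective (fun c : Fin n → R[X] =>
      ∑ i, aeval ((1 : R) ⊗ₜ[k] 𝒞.g) (c i) * ((1 : R) ⊗ₜ[k] b i))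
  rw [heq]
  exact hb R

/-- A ring which is free of finite rank over `R[f]` is finite over `R[f]`. -/
theorem finite_adjoin_of_isPolyFree {B : Type u} [CommRing B] [Algebra R B] {f : B}
    (h : IsPolyFree R f) : Module.Finite (Algebra.adjoin R ({f} : Set B)) B := by
  classical
  obtain ⟨n, e, hbij⟩ := h
  refine Module.finite_def.mpr ⟨Finset.univ.image e, ?_⟩
  rw [eq_top_iff]
  intro x _
  obtain ⟨c, rfl⟩ := hbij.2 x
  refine Submodule.sum_mem _ fun i _ => ?_
  have hmem : aeval f (c i) ∈ Algebra.adjoin R ({f} : Set B) := by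
    rw [Algebra.adjoin_singleton_eq_range_aeval]
    exact ⟨c i, rfl⟩
  have : aeval f (c i) * e i = (⟨aeval f (c i), hmem⟩ : Algebra.adjoin R ({f} : Set B)) • e i := by
    rw [Subalgebra.smul_def, smul_eq_mul]
  rw [this]
  exact Submodule.smul_mem _ _ (Submodule.subset_span (by simp))

/-- `B₂ = R ⊗ A₂` is finite over `R[g]`. -/
theorem chart_finite₂ :
    Module.Finite (Algebra.adjoin R ({(𝒞.chart R).g} : Set (𝒞.chart R).B₂)) (𝒞.chart R).B₂ :=
  finite_adjoin_of_isPolyFree R (chart_isPolyFree₂ 𝒞 R)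

/-- `B₁ = R ⊗ A₁` is finite over `R[f]`. -/
theorem chart_finite₁ :
    Module.Finite (Algebra.adjoin R ({(𝒞.chart R).f} : Set (𝒞.chart R).B₁)) (𝒞.chart R).B₁ :=
  finite_adjoin_of_isPolyFree R (chart_isPolyFree₁ 𝒞 R)

end chart

end Fermat.Agent.S25.ATLAS.DIV.H2868
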