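/-
S25 (Jacobian), algebra side, piece ORDFLAT of helper2868.  Mathlib only.

* `eq_bot_of_forall_maximal_le_smul`, `eq_top_of_forall_maximal_sup_smul` : global Nakayama.
* `exists_basis_of_fibrewise`: a finite family in a finite projective module which is a basis of
  every closed fibre (elementwise form) is a basis.  (Condition (iii) of the chart, route 2.4.)
-/
import Mathlib

set_option autoImplicit false

universe u v

namespace Fermat.Agent.S25.ATLAS.DIV.H2868

section nakayama

variable {R : Type u} [CommRing R] {Q : Type v} [AddCommGroup Q] [Module R Q]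

/-- Global Nakayama: a finitely generated submodule `N` with `N ≤ 𝔪 N` for every maximal ideal
is zero. -/
theorem eq_bot_of_forall_maximal_le_smul (N : Submodule R Q) (hN : N.FG)
    (h : ∀ 𝔪 : Ideal R, 𝔪.IsMaximal → N ≤ 𝔪 • N) : N = ⊥ := by
  by_contra hne
  have hann : N.annihilator ≠ ⊤ := by
    intro htop
    apply hne
    rw [eq_bot_iff]
    intro n hn
    have h1 : (1 : R) ∈ N.annihilator := by rw [htop]; trivial
    have := (Submodule.mem_annihilator.mp h1) n hn
    rw [one_smul] at this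
    rw [this]
    exact zero_mem _
  obtain ⟨𝔪, h𝔪, hle⟩ := Ideal.exists_le_maximal _ hann
  obtain ⟨r, hr1, hr⟩ :=
    Submodule.exists_sub_one_mem_and_smul_eq_zero_of_fg_of_le_smul 𝔪 N hN (h 𝔪 h𝔪)
  have hr𝔪 : r ∈ 𝔪 := hle (Submodule.mem_annihilator.mpr hr)
  have h1 : (1 : R) ∈ 𝔪 := by
    have := 𝔪.sub_mem hr𝔪 hr1
    simpa using this
  exact h𝔪.ne_top ((Ideal.eq_top_iff_one 𝔪).mpr h1)

/-- Global Nakayama: in a finite module, a submodule `W` with `W + 𝔪 Q = Q` for every maximal
ideal is everything. -/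
theorem eq_top_of_forall_maximal_sup_smul [Module.Finite R Q] (W : Submodule R Q)
    (h : ∀ 𝔪 : Ideal R, 𝔪.IsMaximal → ∀ y : Q, ∃ w ∈ W, y - w ∈ 𝔪 • (⊤ : Submodule R Q)) :
    W = ⊤ := by
  have hbot : (⊤ : Submodule R (Q ⧸ W)) = ⊥ := by
    refine eq_bot_of_forall_maximal_le_smul _ Module.Finite.fg_top ?_
    intro 𝔪 h𝔪 z _
    obtain ⟨y, rfl⟩ := Submodule.Quotient.mk_surjective W z
    obtain ⟨w, hw, hyw⟩ := h 𝔪 h𝔪 y
    have hmap : W.mkQ (y - w) ∈ (𝔪 • (⊤ : Submodule R Q)).map W.mkQ :=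
      Submodule.mem_map_of_mem hyw
    rw [Submodule.map_smul'', Submodule.map_top, Submodule.range_mkQ] at hmap
    have : W.mkQ (y - w) = Submodule.Quotient.mk y := by
      rw [map_sub, Submodule.mkQ_apply, Submodule.mkQ_apply,
        (Submodule.Quotient.mk_eq_zero W).mpr hw, sub_zero]
    rwa [this] at hmap
  rw [eq_top_iff]
  intro y _
  have : (Submodule.Quotient.mk y : Q ⧸ W) ∈ (⊤ : Submodule R (Q ⧸ W)) := trivial
  rw [hbot, Submodule.mem_bot, Submodule.Quotient.mk_eq_zero] at this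
  exact this

end nakayama

section basis

variable {R : Type u} [CommRing R] {Q : Type v} [AddCommGroup Q] [Module R Q]

/-- A finite family of a finite projective module which is a basis of every closed fibre
(spanning modulo `𝔪 Q`, and linearly independent modulo `𝔪 Q`) is a basis. -/
theorem exists_basis_of_fibrewise [Module.Finite R Q] [Module.Projective R Q]
    {ι : Type*} [Fintype ι] (b : ι → Q)
    (hspan : ∀ 𝔪 : Ideal R, 𝔪.IsMaximal → ∀ y : Q, ∃ c : ι → R,
      y - ∑ i, c i • b i ∈ 𝔪 • (⊤ : Submodule R Q))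
    (hindep : ∀ 𝔪 : Ideal R, 𝔪.IsMaximal → ∀ c : ι → R,
      ∑ i, c i • b i ∈ 𝔪 • (⊤ : Submodule R Q) → ∀ i, c i ∈ 𝔪) :
    ∃ 𝒷 : Module.Basis ι R Q, ∀ i, 𝒷 i = b i := by
  classical
  let β : (ι → R) →ₗ[R] Q := Fintype.linearCombination R b
  have hβ : ∀ c : ι → R, β c = ∑ i, c i • b i := fun c => Fintype.linearCombination_apply R b c
  -- surjectivity
  have hsurj : Function.Surjective β := by
    rw [← LinearMap.range_eq_top]
    refine eq_top_of_forall_maximal_sup_smul _ ?_
    intro 𝔪 h𝔪 y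
    obtain ⟨c, hc⟩ := hspan 𝔪 h𝔪 y
    exact ⟨β c, ⟨c, rfl⟩, by rw [hβ]; exact hc⟩
  -- a section, and the projector onto the kernel
  obtain ⟨σ, hσ⟩ := Module.projective_lifting_property β LinearMap.id hsurj
  let π : (ι → R) →ₗ[R] (ι → R) := LinearMap.id - σ ∘ₗ β
  have hβσ : ∀ y, β (σ y) = y := fun y => LinearMap.congr_fun hσ y
  have hker : LinearMap.ker β = LinearMap.range π := by
    ext x
    constructor
    · intro hx
      refine ⟨x, ?_⟩
      rw [LinearMap.mem_ker] at hx
      simp [π, hx]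
    · rintro ⟨y, rfl⟩
      rw [LinearMap.mem_ker]
      simp [π, hβσ]
  have hfg : (LinearMap.ker β).FG := by
    rw [hker, LinearMap.range_eq_map]
    exact Module.Finite.fg_top.map π
  have hinj : LinearMap.ker β = ⊥ := by
    refine eq_bot_of_forall_maximal_le_smul _ hfg ?_
    intro 𝔪 h𝔪 x hx
    have hx0 : β x = 0 := hx
    have hc : ∀ i, x i ∈ 𝔪 := by
      refine hindep 𝔪 h𝔪 x ?_
      rw [← hβ, hx0]
      exact zero_mem _
    have hxm : x ∈ 𝔪 • (⊤ : Submodule R (ι → R)) := by
      have : x = ∑ i, x i • (Pi.single i (1 : R) : ι → R) := by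
        ext j
        simp [Finset.sum_apply, Pi.single_apply]
      rw [this]
      exact Submodule.sum_mem _ fun i _ => Submodule.smul_mem_smul (hc i) Submodule.mem_top
    have hπx : π x = x := by simp [π, hx0]
    have : π x ∈ (𝔪 • (⊤ : Submodule R (ι → R))).map π := Submodule.mem_map_of_mem hxm
    rw [Submodule.map_smul'', Submodule.map_top, ← hker, hπx] at this
    exact this
  let e : (ι → R) ≃ₗ[R] Q := LinearEquiv.ofBijective β ⟨LinearMap.ker_eq_bot.mp hinj, hsurj⟩
  refine ⟨Module.Basis.ofEquivFun e.symm, fun i => ?_⟩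
  rw [Module.Basis.coe_ofEquivFun, LinearEquiv.symm_symm]
  change β (Pi.single i 1) = b i
  rw [hβ]
  simp [Pi.single_apply]

end basis

end Fermat.Agent.S25.ATLAS.DIV.H2868
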