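/-
S25 (Jacobian), algebra side, piece ORDFLAT of helper2868.  Mathlib only.

Localisation at one element in the elementwise ("Core") form: `ι : M → M'` with
`M' = {finv ^ m • ι n}` and `ι n = 0 → f ^ m • n = 0`.

* `isLocalizedModule_of_coreAxioms` : such an `ι` is a localisation in Mathlib's sense;
* `exists_dual_extension` : every functional `ψ : M → B` extends to `ψ' : M' → B'` with
  `ψ' (ι n) = algebraMap (ψ n)`;
* `exists_pow_mul_mem_of_map_mem` : `algebraMap y ∈ I B' → ∃ n, f ^ n * y ∈ I`.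
-/
import Mathlib

set_option autoImplicit false
set_option linter.style.haveILetI false

namespace Fermat.Agent.S25.ATLAS.DIV.H2868

section abstract

variable {B B' : Type*} [CommRing B] [CommRing B'] [Algebra B B'] (f : B) (finv : B')
  {M M' : Type*} [AddCommGroup M] [Module B M] [AddCommGroup M'] [Module B M'] [Module B' M']
  [IsScalarTower B B' M'] (ι : M →ₗ[B] M')

theorem isLocalizedModule_of_coreAxioms (hf : algebraMap B B' f * finv = 1)
    (hsurj : ∀ y : M', ∃ (n : M) (m : ℕ), y = finv ^ m • ι n)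
    (hker : ∀ n : M, ι n = 0 → ∃ m : ℕ, f ^ m • n = 0) :
    IsLocalizedModule (Submonoid.powers f) ι := by
  have hf' : finv * algebraMap B B' f = 1 := by rw [mul_comm]; exact hf
  refine ⟨?_, ?_, ?_⟩
  · rintro ⟨_, m, rfl⟩
    rw [Module.End.isUnit_iff]
    refine ⟨fun x y hxy => ?_, fun y => ⟨finv ^ m • y, ?_⟩⟩
    · have h1 : f ^ m • x = f ^ m • y := hxy
      have h2 := congrArg (fun z => finv ^ m • z) h1
      simpa only [← algebraMap_smul B' (f ^ m), ← mul_smul, map_pow, ← mul_pow, hf', one_pow,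
        one_smul] using h2
    · change f ^ m • finv ^ m • y = y
      rw [← algebraMap_smul B' (f ^ m), ← mul_smul, map_pow, ← mul_pow, hf, one_pow, one_smul]
  · intro y
    obtain ⟨n, m, rfl⟩ := hsurj y
    refine ⟨(n, ⟨f ^ m, m, rfl⟩), ?_⟩
    change f ^ m • finv ^ m • ι n = ι n
    rw [← algebraMap_smul B' (f ^ m), ← mul_smul, map_pow, ← mul_pow, hf, one_pow, one_smul]
  · intro x₁ x₂ h
    obtain ⟨m, hm⟩ := hker (x₁ - x₂) (by rw [map_sub, h, sub_self])
    refine ⟨⟨f ^ m, m, rfl⟩, ?_⟩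
    rw [smul_sub, sub_eq_zero] at hm
    exact hm

/-- Every functional on `M` extends to the localisation `M'`. -/
theorem exists_dual_extension (hf : algebraMap B B' f * finv = 1)
    (hsurj : ∀ y : M', ∃ (n : M) (m : ℕ), y = finv ^ m • ι n)
    (hker : ∀ n : M, ι n = 0 → ∃ m : ℕ, f ^ m • n = 0)
    (hB' : ∀ c : B', ∃ (a : B) (m : ℕ), c = algebraMap B B' a * finv ^ m)
    (ψ : Module.Dual B M) :
    ∃ ψ' : Module.Dual B' M', ∀ n, ψ' (ι n) = algebraMap B B' (ψ n) := by
  have hf' : finv * algebraMap B B' f = 1 := by rw [mul_comm]; exact hf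
  haveI := isLocalizedModule_of_coreAxioms f finv ι hf hsurj hker
  let g : M →ₗ[B] B' := (Algebra.linearMap B B') ∘ₗ ψ
  have hunit : ∀ x : Submonoid.powers f, IsUnit (algebraMap B (Module.End B B') x) := by
    rintro ⟨_, m, rfl⟩
    rw [Module.End.isUnit_iff]
    refine ⟨fun x y hxy => ?_, fun y => ⟨finv ^ m * y, ?_⟩⟩
    · have h1 : f ^ m • x = f ^ m • y := hxy
      rw [Algebra.smul_def, Algebra.smul_def, map_pow] at h1
      have h2 := congrArg (fun z => finv ^ m * z) h1
      simpa only [← mul_assoc, ← mul_pow, hf', one_pow, one_mul] using h2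
    · change f ^ m • (finv ^ m * y) = y
      rw [Algebra.smul_def, map_pow, ← mul_assoc, ← mul_pow, hf, one_pow, one_mul]
  let L : M' →ₗ[B] B' := IsLocalizedModule.lift (Submonoid.powers f) ι g hunit
  have hL : ∀ n, L (ι n) = algebraMap B B' (ψ n) := fun n =>
    IsLocalizedModule.lift_apply (Submonoid.powers f) ι g hunit n
  -- `L` commutes with `finv ^ m`
  have hLinv : ∀ (m : ℕ) (y : M'), L (finv ^ m • y) = finv ^ m * L y := by
    intro m y
    have h1 : f ^ m • L (finv ^ m • y) = L y := by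
      rw [← map_smul, ← algebraMap_smul B' (f ^ m), ← mul_smul, map_pow, ← mul_pow, hf, one_pow,
        one_smul]
    rw [← h1, Algebra.smul_def, map_pow, ← mul_assoc, ← mul_pow, hf', one_pow, one_mul]
  refine ⟨{ toFun := L, map_add' := L.map_add, map_smul' := ?_ }, hL⟩
  intro c y
  obtain ⟨a, m, rfl⟩ := hB' c
  rw [RingHom.id_apply, smul_eq_mul, mul_smul, algebraMap_smul, map_smul, hLinv, Algebra.smul_def,
    mul_assoc]

/-- Elements of an extended ideal, elementwise. -/
theorem exists_eq_mul_pow_of_mem_map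
    (hB' : ∀ c : B', ∃ (a : B) (m : ℕ), c = algebraMap B B' a * finv ^ m)
    (hf : algebraMap B B' f * finv = 1) (I : Ideal B) {z : B'}
    (hz : z ∈ Ideal.map (algebraMap B B') I) :
    ∃ a ∈ I, ∃ m : ℕ, z = algebraMap B B' a * finv ^ m := by
  have hf' : finv * algebraMap B B' f = 1 := by rw [mul_comm]; exact hf
  refine Submodule.span_induction (p := fun z _ => ∃ a ∈ I, ∃ m : ℕ,
    z = algebraMap B B' a * finv ^ m) ?_ ?_ ?_ ?_ hz
  · rintro _ ⟨a, ha, rfl⟩
    exact ⟨a, ha, 0, by simp⟩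
  · exact ⟨0, I.zero_mem, 0, by simp⟩
  · rintro x y _ _ ⟨a, ha, m, rfl⟩ ⟨b, hb, l, rfl⟩
    refine ⟨f ^ l * a + f ^ m * b, I.add_mem (I.mul_mem_left _ ha) (I.mul_mem_left _ hb),
      m + l, ?_⟩
    have h1 : ∀ j : ℕ, algebraMap B B' f ^ j * finv ^ j = 1 := fun j => by
      rw [← mul_pow, hf, one_pow]
    rw [map_add, map_mul, map_mul, map_pow, map_pow, pow_add]
    calc algebraMap B B' a * finv ^ m + algebraMap B B' b * finv ^ l
        = algebraMap B B' a * finv ^ m * (algebraMap B B' f ^ l * finv ^ l) +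
            algebraMap B B' b * finv ^ l * (algebraMap B B' f ^ m * finv ^ m) := by
          rw [h1, h1, mul_one, mul_one]
      _ = _ := by ring
  · rintro c x _ ⟨a, ha, m, rfl⟩
    obtain ⟨b, l, rfl⟩ := hB' c
    refine ⟨b * a, I.mul_mem_left _ ha, l + m, ?_⟩
    rw [smul_eq_mul, map_mul, pow_add]
    ring

/-- If the image of `y` lies in the extended ideal `I B'`, some `f ^ n * y` lies in `I`. -/
theorem exists_pow_mul_mem_of_map_mem
    (hB' : ∀ c : B', ∃ (a : B) (m : ℕ), c = algebraMap B B' a * finv ^ m)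
    (hf : algebraMap B B' f * finv = 1)
    (hkerB : ∀ a : B, algebraMap B B' a = 0 → ∃ n : ℕ, f ^ n * a = 0)
    (I : Ideal B) {y : B} (hy : algebraMap B B' y ∈ Ideal.map (algebraMap B B') I) :
    ∃ n : ℕ, f ^ n * y ∈ I := by
  obtain ⟨a, ha, m, hm⟩ := exists_eq_mul_pow_of_mem_map f finv hB' hf I hy
  have h1 : algebraMap B B' (f ^ m * y - a) = 0 := by
    rw [map_sub, map_mul, map_pow, hm, sub_eq_zero]
    calc algebraMap B B' f ^ m * (algebraMap B B' a * finv ^ m)
        = algebraMap B B' a * (algebraMap B B' f * finv) ^ m := by rw [mul_pow]; ring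
      _ = algebraMap B B' a := by rw [hf, one_pow, mul_one]
  obtain ⟨l, hl⟩ := hkerB _ h1
  refine ⟨l + m, ?_⟩
  have h2 : f ^ (l + m) * y = f ^ l * a := by
    rw [mul_sub, sub_eq_zero] at hl
    rw [pow_add, mul_assoc, hl]
  rw [h2]
  exact I.mul_mem_left _ ha

end abstract

end Fermat.Agent.S25.ATLAS.DIV.H2868
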