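/-
S25 (Jacobian), algebra side, piece ORDFLAT of helper2868 (route 2.4: "(Flat)" and the point
`x_L` of the Hilbert chart), on `Fermat/Agent/S25/Core.lean` (helper5425, verbatim).

Setting: `R` any commutative ring, `𝔹 : TwoChart R`, `M : GluedModule 𝔹` with invertible chart
modules, `(s₁, s₂)` a global section (`M.ι₁ s₁ = M.ι₂ s₂`), `𝔞_i := ordIdeal 𝔹.B_i s_i` the order
ideals (the ideal of the zero scheme `D` of the section on the two charts).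

* `exists_dual_ext₁/₂`       : functionals on `M_i` extend to `M₁₂`;
* `map_ordIdeal₁/₂`, `map_ordIdeal_eq` : `𝔞₁ B₁₂ = 𝔞₁₂ = 𝔞₂ B₁₂`;
* `exists_monic_aeval_mem`   : if `𝔞₂ + g B₂ = B₂` ("`D ∩ V(g) = ∅`", condition (ii)) and `B₂` is
  finite over `R[g]`, then `q(f) ∈ 𝔞₁` for some monic `q ∈ R[X]` (so `D` is finite over `R`);
* `eq_comap_of_sup_span_eq_top` : under (ii), `𝔞₂ = r₂⁻¹(𝔞₁ B₁₂)`;
* `chartPoint`               : (Flat) `B₁ ⧸ 𝔞₁` is a finite projective `R`-module;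
* `chartPoint_basis`         : a family of `B₁` which is a basis of every closed fibre of
  `B₁ ⧸ 𝔞₁` is an `R`-basis of `B₁ ⧸ 𝔞₁` (a point of the Hilbert chart `S_B`);
* `ordIdeal_eq_of_iso`       : isomorphic pairs have the same order ideals.

Hypotheses on the chart (`hfin₂`, `hfree₁`, `hprime₁`) hold for `B_i = R ⊗[k] A_i` of a
`CurveData` (`A₂` finite over `k[g]`; `A₁` free over `k[f]`; domain lemma).
-/
import Fermat.Agent.S25.Core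
import Fermat.Agent.S25.ATLAS.DIV.H2868.PolyFree
import Fermat.Agent.S25.ATLAS.DIV.H2868.FibreBasis
import Fermat.Agent.S25.ATLAS.DIV.H2868.LocDual

set_option autoImplicit false
set_option linter.style.haveILetI false

universe u

namespace Fermat.Agent.S25.ATLAS.DIV.H2868

open Fermat.Agent.S25 Polynomial

variable {R : Type u} [CommRing R] {𝔹 : TwoChart R}

/-! ### Chart-level localisation facts -/

theorem exists_pow_mul_mem₁ (I : Ideal 𝔹.B₁) {y : 𝔹.B₁}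
    (hy : 𝔹.r₁ y ∈ Ideal.map 𝔹.r₁ I) : ∃ n : ℕ, 𝔹.f ^ n * y ∈ I := by
  letI : Algebra 𝔹.B₁ 𝔹.B₁₂ := 𝔹.r₁.toRingHom.toAlgebra
  exact exists_pow_mul_mem_of_map_mem 𝔹.f (𝔹.r₂ 𝔹.g) 𝔹.surj₁ 𝔹.fg 𝔹.ker₁ I hy

theorem exists_pow_mul_mem₂ (I : Ideal 𝔹.B₂) {y : 𝔹.B₂}
    (hy : 𝔹.r₂ y ∈ Ideal.map 𝔹.r₂ I) : ∃ n : ℕ, 𝔹.g ^ n * y ∈ I := by
  letI : Algebra 𝔹.B₂ 𝔹.B₁₂ := 𝔹.r₂.toRingHom.toAlgebra
  have hgf : 𝔹.r₂ 𝔹.g * 𝔹.r₁ 𝔹.f = 1 := by rw [mul_comm]; exact 𝔹.fg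
  exact exists_pow_mul_mem_of_map_mem 𝔹.g (𝔹.r₁ 𝔹.f) 𝔹.surj₂ hgf 𝔹.ker₂ I hy

/-- Functionals on the first chart module extend to the overlap. -/
theorem exists_dual_ext₁ (N : GluedModule 𝔹) (ψ : Module.Dual 𝔹.B₁ N.N₁) :
    ∃ ψ' : Module.Dual 𝔹.B₁₂ N.N₁₂, ∀ n, ψ' (N.ι₁ n) = 𝔹.r₁ (ψ n) := by
  letI : Algebra 𝔹.B₁ 𝔹.B₁₂ := 𝔹.r₁.toRingHom.toAlgebra
  letI : Module 𝔹.B₁ N.N₁₂ := Module.compHom N.N₁₂ 𝔹.r₁.toRingHom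
  haveI : IsScalarTower 𝔹.B₁ 𝔹.B₁₂ N.N₁₂ := ⟨fun b c n => by
    change (𝔹.r₁ b * c) • n = 𝔹.r₁ b • c • n
    rw [mul_smul]⟩
  let ι : N.N₁ →ₗ[𝔹.B₁] N.N₁₂ :=
    { toFun := N.ι₁
      map_add' := N.ι₁.map_add
      map_smul' := fun b n => N.ι₁_smul b n }
  exact exists_dual_extension 𝔹.f (𝔹.r₂ 𝔹.g) ι 𝔹.fg N.surj₁ N.ker₁ 𝔹.surj₁ ψ

/-- Functionals on the second chart module extend to the overlap. -/
theorem exists_dual_ext₂ (N : GluedModule 𝔹) (ψ : Module.Dual 𝔹.B₂ N.N₂) :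
    ∃ ψ' : Module.Dual 𝔹.B₁₂ N.N₁₂, ∀ n, ψ' (N.ι₂ n) = 𝔹.r₂ (ψ n) := by
  letI : Algebra 𝔹.B₂ 𝔹.B₁₂ := 𝔹.r₂.toRingHom.toAlgebra
  letI : Module 𝔹.B₂ N.N₁₂ := Module.compHom N.N₁₂ 𝔹.r₂.toRingHom
  haveI : IsScalarTower 𝔹.B₂ 𝔹.B₁₂ N.N₁₂ := ⟨fun b c n => by
    change (𝔹.r₂ b * c) • n = 𝔹.r₂ b • c • n
    rw [mul_smul]⟩
  let ι : N.N₂ →ₗ[𝔹.B₂] N.N₁₂ :=
    { toFun := N.ι₂
      map_add' := N.ι₂.map_add
      map_smul' := fun b n => N.ι₂_smul b n }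
  have hgf : 𝔹.r₂ 𝔹.g * 𝔹.r₁ 𝔹.f = 1 := by rw [mul_comm]; exact 𝔹.fg
  exact exists_dual_extension 𝔹.g (𝔹.r₁ 𝔹.f) ι hgf N.surj₂ N.ker₂ 𝔹.surj₂ ψ

/-! ### Order ideals of a section on the two charts -/

/-- `𝔞₁ B₁₂` is the order ideal of the section on the overlap. -/
theorem map_ordIdeal₁ (N : GluedModule 𝔹) [Module.Projective 𝔹.B₁ N.N₁] (s₁ : N.N₁) :
    Ideal.map 𝔹.r₁ (ordIdeal 𝔹.B₁ s₁) = ordIdeal 𝔹.B₁₂ (N.ι₁ s₁) :=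
  (ordIdeal_map_eq (𝔹.r₁ : 𝔹.B₁ →+* 𝔹.B₁₂) N.ι₁.toAddMonoidHom (fun b n => N.ι₁_smul b n)
    (exists_dual_ext₁ N) s₁).symm

/-- `𝔞₂ B₁₂` is the order ideal of the section on the overlap. -/
theorem map_ordIdeal₂ (N : GluedModule 𝔹) [Module.Projective 𝔹.B₂ N.N₂] (s₂ : N.N₂) :
    Ideal.map 𝔹.r₂ (ordIdeal 𝔹.B₂ s₂) = ordIdeal 𝔹.B₁₂ (N.ι₂ s₂) :=
  (ordIdeal_map_eq (𝔹.r₂ : 𝔹.B₂ →+* 𝔹.B₁₂) N.ι₂.toAddMonoidHom (fun b n => N.ι₂_smul b n)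
    (exists_dual_ext₂ N) s₂).symm

/-- The order ideals of a global section agree on the overlap: `𝔞₁ B₁₂ = 𝔞₂ B₁₂`. -/
theorem map_ordIdeal_eq (N : GluedModule 𝔹) [Module.Projective 𝔹.B₁ N.N₁]
    [Module.Projective 𝔹.B₂ N.N₂] {s₁ : N.N₁} {s₂ : N.N₂} (hs : N.ι₁ s₁ = N.ι₂ s₂) :
    Ideal.map 𝔹.r₁ (ordIdeal 𝔹.B₁ s₁) = Ideal.map 𝔹.r₂ (ordIdeal 𝔹.B₂ s₂) := by
  rw [map_ordIdeal₁, map_ordIdeal₂, hs]

/-- Isomorphic pairs (line bundle, section up to a unit) have the same order ideal (chart 1). -/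
theorem ordIdeal_eq_of_iso₁ {N N' : GluedModule 𝔹} (e : GluedModule.Iso N N') (s₁ : N.N₁)
    (s₁' : N'.N₁) {c : 𝔹.B₁} (hc : IsUnit c) (h : e.e₁ s₁ = c • s₁') :
    ordIdeal 𝔹.B₁ s₁ = ordIdeal 𝔹.B₁ s₁' := by
  rw [← ordIdeal_linearEquiv e.e₁, h, ordIdeal_smul_of_isUnit hc]

/-- Isomorphic pairs (line bundle, section up to a unit) have the same order ideal (chart 2). -/
theorem ordIdeal_eq_of_iso₂ {N N' : GluedModule 𝔹} (e : GluedModule.Iso N N') (s₂ : N.N₂)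
    (s₂' : N'.N₂) {c : 𝔹.B₂} (hc : IsUnit c) (h : e.e₂ s₂ = c • s₂') :
    ordIdeal 𝔹.B₂ s₂ = ordIdeal 𝔹.B₂ s₂' := by
  rw [← ordIdeal_linearEquiv e.e₂, h, ordIdeal_smul_of_isUnit hc]

/-! ### Condition (ii): the divisor does not meet `V(g)` -/

/-- Under (ii) `𝔞₂ + g B₂ = B₂`, the ideal `𝔞₂` is the contraction of `𝔞₁ B₁₂ = 𝔞₂ B₁₂`. -/
theorem eq_comap_of_sup_span_eq_top (𝔞₁ : Ideal 𝔹.B₁) (𝔞₂ : Ideal 𝔹.B₂)
    (hcompat : Ideal.map 𝔹.r₁ 𝔞₁ = Ideal.map 𝔹.r₂ 𝔞₂)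
    (htop : 𝔞₂ ⊔ Ideal.span {𝔹.g} = ⊤) :
    𝔞₂ = Ideal.comap 𝔹.r₂ (Ideal.map 𝔹.r₁ 𝔞₁) := by
  rw [hcompat]
  refine le_antisymm Ideal.le_comap_map fun b hb => ?_
  obtain ⟨n, hn⟩ := exists_pow_mul_mem₂ 𝔞₂ (Ideal.mem_comap.mp hb)
  have h1 : (1 : 𝔹.B₂) ∈ 𝔞₂ ⊔ Ideal.span {𝔹.g} := by rw [htop]; trivial
  obtain ⟨a, ha, y, hy, hay⟩ := Submodule.mem_sup.mp h1
  obtain ⟨c, rfl⟩ := Ideal.mem_span_singleton'.mp hy
  have hcg : Ideal.Quotient.mk 𝔞₂ (c * 𝔹.g) = 1 := by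
    rw [← map_one (Ideal.Quotient.mk 𝔞₂), ← hay, map_add, Ideal.Quotient.eq_zero_iff_mem.mpr ha,
      zero_add]
  rw [← Ideal.Quotient.eq_zero_iff_mem]
  have h2 : Ideal.Quotient.mk 𝔞₂ (c ^ n * (𝔹.g ^ n * b)) = 0 :=
    Ideal.Quotient.eq_zero_iff_mem.mpr (𝔞₂.mul_mem_left _ hn)
  have h3 : Ideal.Quotient.mk 𝔞₂ (c ^ n * (𝔹.g ^ n * b)) = Ideal.Quotient.mk 𝔞₂ b := by
    have : c ^ n * (𝔹.g ^ n * b) = (c * 𝔹.g) ^ n * b := by rw [mul_pow]; ring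
    rw [this, map_mul, map_pow, hcg, one_pow, one_mul]
  rw [← h3, h2]

/-- Under (ii) `𝔞₂ + g B₂ = B₂`, with `B₂` finite over `R[g]`: a monic polynomial in `f` lies in
`𝔞₁`.  (Nakayama for the finite `R[g]`-module `B₂ ⧸ 𝔞₂`, on which `g` is surjective.) -/
theorem exists_monic_aeval_mem
    (hfin₂ : Module.Finite (Algebra.adjoin R ({𝔹.g} : Set 𝔹.B₂)) 𝔹.B₂)
    (𝔞₁ : Ideal 𝔹.B₁) (𝔞₂ : Ideal 𝔹.B₂)
    (hcompat : Ideal.map 𝔹.r₂ 𝔞₂ ≤ Ideal.map 𝔹.r₁ 𝔞₁)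
    (htop : 𝔞₂ ⊔ Ideal.span {𝔹.g} = ⊤) :
    ∃ q : R[X], q.Monic ∧ aeval 𝔹.f q ∈ 𝔞₁ := by
  classical
  have h1 : (1 : 𝔹.B₂) ∈ 𝔞₂ ⊔ Ideal.span {𝔹.g} := by rw [htop]; trivial
  obtain ⟨a, ha, y, hy, hay⟩ := Submodule.mem_sup.mp h1
  obtain ⟨c, rfl⟩ := Ideal.mem_span_singleton'.mp hy
  -- Nakayama over `S = R[g]`
  let S := Algebra.adjoin R ({𝔹.g} : Set 𝔹.B₂)
  let gS : S := ⟨𝔹.g, Algebra.subset_adjoin (Set.mem_singleton _)⟩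
  let W : Submodule S 𝔹.B₂ := 𝔞₂.restrictScalars S
  haveI : Module.Finite S 𝔹.B₂ := hfin₂
  have hle : (⊤ : Submodule S (𝔹.B₂ ⧸ W)) ≤ Ideal.span {gS} • (⊤ : Submodule S (𝔹.B₂ ⧸ W)) := by
    intro z _
    obtain ⟨x, rfl⟩ := Submodule.Quotient.mk_surjective W z
    have hx : (Submodule.Quotient.mk x : 𝔹.B₂ ⧸ W) = gS • Submodule.Quotient.mk (c * x) := by
      rw [← Submodule.Quotient.mk_smul, Submodule.Quotient.eq]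
      change x - 𝔹.g * (c * x) ∈ 𝔞₂
      have : x - 𝔹.g * (c * x) = a * x := by
        have := congrArg (fun t => t * x) hay
        simp only [one_mul, add_mul] at this
        linear_combination -this
      rw [this]
      exact 𝔞₂.mul_mem_right _ ha
    rw [hx]
    exact Submodule.smul_mem_smul (Ideal.mem_span_singleton_self gS) Submodule.mem_top
  obtain ⟨r, hr1, hr⟩ := Submodule.exists_sub_one_mem_and_smul_eq_zero_of_fg_of_le_smul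
    (Ideal.span {gS}) (⊤ : Submodule S (𝔹.B₂ ⧸ W)) Module.Finite.fg_top hle
  have hra : (r : 𝔹.B₂) ∈ 𝔞₂ := by
    have h0 := hr (Submodule.Quotient.mk 1) Submodule.mem_top
    rw [← Submodule.Quotient.mk_smul, Submodule.Quotient.mk_eq_zero] at h0
    have : r • (1 : 𝔹.B₂) = (r : 𝔹.B₂) := by
      rw [Subalgebra.smul_def, smul_eq_mul, mul_one]
    rw [← this]
    exact h0
  obtain ⟨t, ht⟩ := Ideal.mem_span_singleton'.mp hr1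
  obtain ⟨p, hp⟩ : ∃ p : R[X], aeval 𝔹.g p = (t : 𝔹.B₂) := by
    have := t.2
    change (t : 𝔹.B₂) ∈ Algebra.adjoin R ({𝔹.g} : Set 𝔹.B₂) at this
    rw [Algebra.adjoin_singleton_eq_range_aeval] at this
    exact this
  have hrp : (r : 𝔹.B₂) = 1 + aeval 𝔹.g p * 𝔹.g := by
    have := congrArg (fun z : S => (z : 𝔹.B₂)) ht
    simp only [Subalgebra.coe_mul, Subalgebra.coe_sub, Subalgebra.coe_one] at this
    rw [hp]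
    change (t : 𝔹.B₂) * 𝔹.g = (r : 𝔹.B₂) - 1 at this
    rw [this]; ring
  -- the reversed polynomial
  set d := p.natDegree with hd
  let q₀ : R[X] := X ^ (d + 1) + ∑ j ∈ Finset.range (d + 1), C (p.coeff j) * X ^ (d - j)
  have hq₀ : q₀.Monic := by
    refine Polynomial.monic_X_pow_add ?_
    refine lt_of_le_of_lt (Polynomial.degree_sum_le _ _) ?_
    rw [Finset.sup_lt_iff (WithBot.bot_lt_coe _)]
    intro j _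
    refine lt_of_le_of_lt (Polynomial.degree_C_mul_X_pow_le _ _) ?_
    exact_mod_cast Nat.lt_succ_of_le (Nat.sub_le d j)
  set u := 𝔹.r₁ 𝔹.f with hu
  set v := 𝔹.r₂ 𝔹.g with hv
  have huv : u * v = 1 := 𝔹.fg
  have h_lhs : 𝔹.r₁ (aeval 𝔹.f q₀) = u ^ (d + 1) +
      ∑ j ∈ Finset.range (d + 1), algebraMap R 𝔹.B₁₂ (p.coeff j) * u ^ (d - j) := by
    rw [← Polynomial.aeval_algHom_apply]
    simp only [q₀, map_add, map_pow, aeval_X, map_sum, map_mul, aeval_C, hu]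
  have h_rhs : 𝔹.r₂ (r : 𝔹.B₂) = 1 +
      (∑ j ∈ Finset.range (d + 1), algebraMap R 𝔹.B₁₂ (p.coeff j) * v ^ j) * v := by
    rw [hrp, map_add, map_one, map_mul, ← Polynomial.aeval_algHom_apply, ← hv,
      Polynomial.aeval_eq_sum_range (p := p), ← hd]
    congr 2
    refine Finset.sum_congr rfl fun j _ => ?_
    rw [Algebra.smul_def]
  have hkey : 𝔹.r₁ (aeval 𝔹.f q₀) = u ^ (d + 1) * 𝔹.r₂ (r : 𝔹.B₂) := by
    rw [h_lhs, h_rhs, mul_add, mul_one, Finset.sum_mul, Finset.mul_sum]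
    congr 1
    refine Finset.sum_congr rfl fun j hj => ?_
    have hjd : j ≤ d := Nat.lt_succ_iff.mp (Finset.mem_range.mp hj)
    have h2 : u ^ (d + 1) * v ^ (j + 1) = u ^ (d - j) := by
      have : d + 1 = (d - j) + (j + 1) := by omega
      rw [this, pow_add, mul_assoc, ← mul_pow, huv, one_pow, mul_one]
    rw [← h2]
    ring
  have hmem : 𝔹.r₁ (aeval 𝔹.f q₀) ∈ Ideal.map 𝔹.r₁ 𝔞₁ := by
    rw [hkey]
    exact hcompat (Ideal.mul_mem_left _ _ (Ideal.mem_map_of_mem 𝔹.r₂ hra))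
  obtain ⟨n, hn⟩ := exists_pow_mul_mem₁ 𝔞₁ hmem
  refine ⟨X ^ n * q₀, (Polynomial.monic_X_pow n).mul hq₀, ?_⟩
  rw [map_mul, map_pow, aeval_X]
  exact hn

/-! ### The chart point -/

/-- **(Flat) for the zero scheme of a section.**  `M` a line bundle on the two-chart `𝔹`,
`(s₁, s₂)` a global section, nonzero on every closed fibre of the first chart, with zero scheme
disjoint from `V(g)` (condition (ii)).  Then `B₁ ⧸ 𝔞₁` is a finite projective `R`-module, and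
`𝔞₂ = r₂⁻¹(𝔞₁ B₁₂)`. -/
theorem chartPoint
    (hfin₂ : Module.Finite (Algebra.adjoin R ({𝔹.g} : Set 𝔹.B₂)) 𝔹.B₂)
    (hfree₁ : IsPolyFree R 𝔹.f)
    (hprime₁ : ∀ 𝔪 : Ideal R, 𝔪.IsMaximal → (𝔪.map (algebraMap R 𝔹.B₁)).IsPrime)
    (M : GluedModule 𝔹) (hM : M.IsLineBundle) (s₁ : M.N₁) (s₂ : M.N₂)
    (hs : M.ι₁ s₁ = M.ι₂ s₂)
    (hnz : ∀ 𝔪 : Ideal R, 𝔪.IsMaximal →
      s₁ ∉ (𝔪.map (algebraMap R 𝔹.B₁)) • (⊤ : Submodule 𝔹.B₁ M.N₁))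
    (hii : ordIdeal 𝔹.B₂ s₂ ⊔ Ideal.span {𝔹.g} = ⊤) :
    Module.Finite R (𝔹.B₁ ⧸ ordIdeal 𝔹.B₁ s₁) ∧
      Module.Projective R (𝔹.B₁ ⧸ ordIdeal 𝔹.B₁ s₁) ∧
      ordIdeal 𝔹.B₂ s₂ = Ideal.comap 𝔹.r₂ (Ideal.map 𝔹.r₁ (ordIdeal 𝔹.B₁ s₁)) := by
  haveI := hM.inv₁
  haveI := hM.inv₂
  have hcompat := map_ordIdeal_eq M hs
  obtain ⟨q, hq, hqmem⟩ := exists_monic_aeval_mem hfin₂ _ _ hcompat.ge hii
  obtain ⟨h1, h2⟩ := ordIdeal_quotient_finite_projective hfree₁ hprime₁ s₁ hnz q hq hqmem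
  exact ⟨h1, h2, eq_comap_of_sup_span_eq_top _ _ hcompat hii⟩

/-- Membership in `𝔪 Q` for the quotient `Q = B ⧸ I`, in terms of `B`. -/
theorem mk_mem_smul_top_iff {B : Type*} [CommRing B] [Algebra R B] (I : Ideal B) (𝔪 : Ideal R)
    (x : B) :
    (Ideal.Quotient.mk I x : B ⧸ I) ∈ 𝔪 • (⊤ : Submodule R (B ⧸ I)) ↔
      x ∈ I ⊔ 𝔪.map (algebraMap R B) := by
  let π : B →ₗ[R] (B ⧸ I) := (Ideal.Quotient.mkₐ R I).toLinearMap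
  have hπ : ∀ b : B, π b = Ideal.Quotient.mk I b := fun b => rfl
  have hmap : (𝔪 • (⊤ : Submodule R B)).map π = 𝔪 • (⊤ : Submodule R (B ⧸ I)) := by
    rw [Submodule.map_smul'', Submodule.map_top,
      LinearMap.range_eq_top.mpr Ideal.Quotient.mk_surjective]
  have htop : ∀ y : B, y ∈ 𝔪 • (⊤ : Submodule R B) ↔ y ∈ 𝔪.map (algebraMap R B) := by
    intro y
    rw [Ideal.smul_top_eq_map]
    rfl
  rw [← hmap]
  constructor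
  · rintro ⟨m, hm, hmx⟩
    rw [hπ, Ideal.Quotient.eq] at hmx
    have : x = (x - m) + m := by ring
    rw [this]
    refine Submodule.add_mem_sup ?_ ((htop m).mp hm)
    have h2 : x - m = -(m - x) := by ring
    rw [h2]
    exact I.neg_mem hmx
  · intro hx
    obtain ⟨a, ha, m, hm, rfl⟩ := Submodule.mem_sup.mp hx
    refine ⟨m, (htop m).mpr hm, ?_⟩
    rw [hπ, Ideal.Quotient.eq]
    have : m - (a + m) = -a := by ring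
    rw [this]
    exact I.neg_mem ha

/-- **The point of the Hilbert chart.**  In the situation of `chartPoint`, a finite family `b` of
elements of `B₁` whose classes form a basis of every closed fibre of `B₁ ⧸ 𝔞₁` (condition (iii),
elementwise form) gives an `R`-basis of `B₁ ⧸ 𝔞₁`. -/
theorem chartPoint_basis
    (hfin₂ : Module.Finite (Algebra.adjoin R ({𝔹.g} : Set 𝔹.B₂)) 𝔹.B₂)
    (hfree₁ : IsPolyFree R 𝔹.f)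
    (hprime₁ : ∀ 𝔪 : Ideal R, 𝔪.IsMaximal → (𝔪.map (algebraMap R 𝔹.B₁)).IsPrime)
    (M : GluedModule 𝔹) (hM : M.IsLineBundle) (s₁ : M.N₁) (s₂ : M.N₂)
    (hs : M.ι₁ s₁ = M.ι₂ s₂)
    (hnz : ∀ 𝔪 : Ideal R, 𝔪.IsMaximal →
      s₁ ∉ (𝔪.map (algebraMap R 𝔹.B₁)) • (⊤ : Submodule 𝔹.B₁ M.N₁))
    (hii : ordIdeal 𝔹.B₂ s₂ ⊔ Ideal.span {𝔹.g} = ⊤)
    {ι : Type*} [Fintype ι] (b : ι → 𝔹.B₁)
    (hspan : ∀ 𝔪 : Ideal R, 𝔪.IsMaximal → ∀ y : 𝔹.B₁, ∃ c : ι → R,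
      y - ∑ i, c i • b i ∈ ordIdeal 𝔹.B₁ s₁ ⊔ 𝔪.map (algebraMap R 𝔹.B₁))
    (hindep : ∀ 𝔪 : Ideal R, 𝔪.IsMaximal → ∀ c : ι → R,
      ∑ i, c i • b i ∈ ordIdeal 𝔹.B₁ s₁ ⊔ 𝔪.map (algebraMap R 𝔹.B₁) → ∀ i, c i ∈ 𝔪) :
    ∃ 𝒷 : Module.Basis ι R (𝔹.B₁ ⧸ ordIdeal 𝔹.B₁ s₁),
      ∀ i, 𝒷 i = Ideal.Quotient.mk (ordIdeal 𝔹.B₁ s₁) (b i) := by
  obtain ⟨h1, h2, -⟩ := chartPoint hfin₂ hfree₁ hprime₁ M hM s₁ s₂ hs hnz hii
  haveI := h1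
  haveI := h2
  have hsum : ∀ c : ι → R, ∑ i, c i • Ideal.Quotient.mk (ordIdeal 𝔹.B₁ s₁) (b i) =
      Ideal.Quotient.mk (ordIdeal 𝔹.B₁ s₁) (∑ i, c i • b i) := by
    intro c
    rw [map_sum]
    refine Finset.sum_congr rfl fun i _ => ?_
    rw [Algebra.smul_def, Algebra.smul_def, map_mul]
    rfl
  refine exists_basis_of_fibrewise (fun i => Ideal.Quotient.mk (ordIdeal 𝔹.B₁ s₁) (b i)) ?_ ?_
  · intro 𝔪 h𝔪 y
    obtain ⟨y, rfl⟩ := Ideal.Quotient.mk_surjective y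
    obtain ⟨c, hc⟩ := hspan 𝔪 h𝔪 y
    refine ⟨c, ?_⟩
    rw [hsum, ← map_sub, mk_mem_smul_top_iff]
    exact hc
  · intro 𝔪 h𝔪 c hc
    rw [hsum, mk_mem_smul_top_iff] at hc
    exact hindep 𝔪 h𝔪 c hc

end Fermat.Agent.S25.ATLAS.DIV.H2868
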