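/-
S25 ATLAS/DIV-B (helper2868): the order ideal of a section in the FROZEN vocabulary
(`𝒞.chart R`, `BaseChangeData`, rigidification maps).

* `eq_top_of_forall_dual_apply_mem`     : the trace ideal of an invertible module is `⊤`;
* `ordIdeal_sup_eq_top_iff_span_sup`    : C2 `N = B s + J N` ⟺ (ii) `ord(s) + J = B`;
* `span_singleton_eq_ordIdeal_smul_top` : `B s = ord(s) N`;
* `ordIdeal_baseChange₁/₂`              : order ideals commute with base change
  (`BaseChangeData`, any `TwoChart.Hom`);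
* `baseChange_mem_H0`                   : base change of a global section;
* `not_mem_smul_top_of_isUnit_eval`     : C1-type hypothesis `e(s₁) ∈ Rˣ` (for an `ε`-semilinear
  `e : M₁ → R`) ⟹ `s₁` is nonzero on every closed fibre;
* `chart_chartPoint`, `chart_flat`      : **(Flat)** for `𝒞.chart R`: `B₁ ⧸ ord₁(s)` is a finite
  projective `R`-module, for ANY `k`-algebra `R` (no twists, no cohomology, no (CB1));
* `chart_chartPoint_basis`              : the point of the Hilbert chart.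
-/
import Fermat.Agent.S25.ATLAS.DIV.H2868.ChartHyp
import Fermat.Agent.S25.ATLAS.DIV.H2868.ChartPoint

set_option autoImplicit false
set_option linter.style.haveILetI false

universe u

namespace Fermat.Agent.S25.ATLAS.DIV.H2868

open scoped TensorProduct
open GluedModule

section generic

variable {B : Type*} [CommRing B] {N : Type*} [AddCommGroup N] [Module B N]
  [Module.Invertible B N]

/-- The trace ideal of an invertible module is `⊤`: an ideal containing all values `ψ n` of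
functionals is the unit ideal. -/
theorem eq_top_of_forall_dual_apply_mem (I : Ideal B)
    (h : ∀ (ψ : Module.Dual B N) (n : N), ψ n ∈ I) : I = ⊤ := by
  have key : ∀ t : Module.Dual B N ⊗[B] N, contractLeft B N t ∈ I := by
    intro t
    induction t using TensorProduct.induction_on with
    | zero => rw [map_zero]; exact I.zero_mem
    | tmul ψ n => rw [contractLeft_apply]; exact h ψ n
    | add x y hx hy => rw [map_add]; exact I.add_mem hx hy
  obtain ⟨t, ht⟩ := (Module.Invertible.bijective (R := B) (M := N)).2 1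
  rw [Ideal.eq_top_iff_one, ← ht]
  exact key t

/-- C2 ⟹ (ii): if `N = B s + J N` then `ord(s) + J = B`. -/
theorem ordIdeal_sup_eq_top_of_span_sup (s : N) (J : Ideal B)
    (h : Submodule.span B {s} ⊔ J • (⊤ : Submodule B N) = ⊤) : ordIdeal B s ⊔ J = ⊤ := by
  refine eq_top_of_forall_dual_apply_mem (N := N) _ fun ψ n => ?_
  have hn : n ∈ Submodule.span B {s} ⊔ J • (⊤ : Submodule B N) := by rw [h]; trivial
  obtain ⟨x, hx, y, hy, rfl⟩ := Submodule.mem_sup.mp hn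
  obtain ⟨b, rfl⟩ := Submodule.mem_span_singleton.mp hx
  rw [map_add, map_smul, smul_eq_mul]
  exact Submodule.add_mem_sup (Ideal.mul_mem_left _ _ (apply_mem_ordIdeal ψ s))
    (dual_apply_mem_of_mem_smul_top ψ J hy)

/-- (ii) ⟹ C2: if `ord(s) + J = B` then `N = B s + J N`. -/
theorem span_sup_eq_top_of_ordIdeal_sup (s : N) (J : Ideal B)
    (h : ordIdeal B s ⊔ J = ⊤) : Submodule.span B {s} ⊔ J • (⊤ : Submodule B N) = ⊤ := by
  rw [eq_top_iff]
  intro n _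
  have h1 : (1 : B) ∈ ordIdeal B s ⊔ J := by rw [h]; trivial
  obtain ⟨a, ha, c, hc, hac⟩ := Submodule.mem_sup.mp h1
  obtain ⟨ψ, rfl⟩ := mem_ordIdeal.mp ha
  have hn : n = ψ n • s + c • n := by
    rw [dual_apply_smul_comm ψ n s, ← add_smul, hac, one_smul]
  rw [hn]
  exact Submodule.add_mem_sup (Submodule.smul_mem _ _ (Submodule.mem_span_singleton_self s))
    (Submodule.smul_mem_smul hc Submodule.mem_top)

/-- C2 ⟺ (ii). -/
theorem ordIdeal_sup_eq_top_iff_span_sup (s : N) (J : Ideal B) :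
    ordIdeal B s ⊔ J = ⊤ ↔ Submodule.span B {s} ⊔ J • (⊤ : Submodule B N) = ⊤ :=
  ⟨span_sup_eq_top_of_ordIdeal_sup s J, ordIdeal_sup_eq_top_of_span_sup s J⟩

/-- `B s = ord(s) N` in an invertible module. -/
theorem span_singleton_eq_ordIdeal_smul_top (s : N) :
    Submodule.span B {s} = ordIdeal B s • (⊤ : Submodule B N) := by
  apply le_antisymm
  · rw [Submodule.span_singleton_le_iff_mem]
    -- `s = ∑ ψ_i(n_i) s = ∑ ψ_i(s) n_i`
    have key : ∀ t : Module.Dual B N ⊗[B] N,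
        contractLeft B N t • s ∈ ordIdeal B s • (⊤ : Submodule B N) := by
      intro t
      induction t using TensorProduct.induction_on with
      | zero => rw [map_zero, zero_smul]; exact Submodule.zero_mem _
      | tmul ψ n =>
        rw [contractLeft_apply, dual_apply_smul_comm ψ n s]
        exact Submodule.smul_mem_smul (apply_mem_ordIdeal ψ s) Submodule.mem_top
      | add x y hx hy => rw [map_add, add_smul]; exact Submodule.add_mem _ hx hy
    obtain ⟨t, ht⟩ := (Module.Invertible.bijective (R := B) (M := N)).2 1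
    have := key t
    rwa [ht, one_smul] at this
  · rw [Submodule.smul_le]
    rintro a ha n -
    obtain ⟨ψ, rfl⟩ := mem_ordIdeal.mp ha
    rw [← dual_apply_smul_comm ψ n s]
    exact Submodule.smul_mem _ _ (Submodule.mem_span_singleton_self s)

end generic

section basechange

variable {R R' : Type u} [CommRing R] [CommRing R'] {φ : R →+* R'}
  {𝔹 : TwoChart R} {𝔹' : TwoChart R'} {Ψ : TwoChart.Hom φ 𝔹 𝔹'}
  {N : GluedModule 𝔹} {N' : GluedModule 𝔹'}

/-- Order ideals commute with base change (first chart). -/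
theorem ordIdeal_baseChange₁ (D : BaseChangeData Ψ N N') [Module.Projective 𝔹.B₁ N.N₁]
    (s : N.N₁) : ordIdeal 𝔹'.B₁ (D.j₁ s) = Ideal.map Ψ.ψ₁ (ordIdeal 𝔹.B₁ s) := by
  refine ordIdeal_map_eq Ψ.ψ₁ D.j₁ D.j₁_smul (fun ψ => ?_) s
  obtain ⟨h', hh', -⟩ := D.univ₁ 𝔹'.B₁ ((Ψ.ψ₁ : 𝔹.B₁ →+ 𝔹'.B₁).comp ψ.toAddMonoidHom)
    (fun b n => by simp)
  exact ⟨h', hh'⟩

/-- Order ideals commute with base change (second chart). -/
theorem ordIdeal_baseChange₂ (D : BaseChangeData Ψ N N') [Module.Projective 𝔹.B₂ N.N₂]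
    (s : N.N₂) : ordIdeal 𝔹'.B₂ (D.j₂ s) = Ideal.map Ψ.ψ₂ (ordIdeal 𝔹.B₂ s) := by
  refine ordIdeal_map_eq Ψ.ψ₂ D.j₂ D.j₂_smul (fun ψ => ?_) s
  obtain ⟨h', hh', -⟩ := D.univ₂ 𝔹'.B₂ ((Ψ.ψ₂ : 𝔹.B₂ →+ 𝔹'.B₂).comp ψ.toAddMonoidHom)
    (fun b n => by simp)
  exact ⟨h', hh'⟩

/-- Base change of a global section is a global section. -/
theorem baseChange_mem_H0 (D : BaseChangeData Ψ N N') {x : N.N₁ × N.N₂} (hx : x ∈ N.H0) :
    (D.j₁ x.1, D.j₂ x.2) ∈ N'.H0 := by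
  rw [mem_H0] at hx ⊢
  change N'.ι₁ (D.j₁ x.1) = N'.ι₂ (D.j₂ x.2)
  rw [← D.comm₁, ← D.comm₂, hx]

end basechange

section chart

variable {k : Type u} [Field k] [IsAlgClosed k] (𝒞 : CurveData k) {R : Type u} [CommRing R]
  [Algebra k R]

omit [IsAlgClosed k] in
/-- A section whose value at `ε` (for an `ε`-semilinear map `e : M₁ → R`, e.g. a rigidification)
is a unit does not vanish on any closed fibre. -/
theorem not_mem_smul_top_of_isUnit_eval (M : GluedModule (𝒞.chart R)) (e : M.N₁ →ₗ[R] R)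
    (he : ∀ (b : (𝒞.chart R).B₁) (n : M.N₁), e (b • n) = 𝒞.epsR R b * e n) (s₁ : M.N₁)
    (hu : IsUnit (e s₁)) (𝔪 : Ideal R) (h𝔪 : 𝔪.IsMaximal) :
    s₁ ∉ (𝔪.map (algebraMap R (𝒞.chart R).B₁)) • (⊤ : Submodule (𝒞.chart R).B₁ M.N₁) := by
  intro hmem
  have hle : 𝔪.map (algebraMap R (𝒞.chart R).B₁) ≤ Ideal.comap (𝒞.epsR R) 𝔪 := by
    rw [Ideal.map_le_iff_le_comap]
    intro r hr
    rw [Ideal.mem_comap, Ideal.mem_comap, AlgHom.commutes]
    exact hr
  have key : ∀ n ∈ (𝔪.map (algebraMap R (𝒞.chart R).B₁)) •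
      (⊤ : Submodule (𝒞.chart R).B₁ M.N₁), e n ∈ 𝔪 := by
    intro n hn
    refine Submodule.smul_induction_on hn (fun b hb m _ => ?_) (fun x y hx hy => ?_)
    · rw [he]
      exact 𝔪.mul_mem_right _ (hle hb)
    · rw [map_add]; exact 𝔪.add_mem hx hy
  exact h𝔪.ne_top (Ideal.eq_top_of_isUnit_mem _ (key s₁ hmem) hu)

/-- **(Flat) for `𝒞.chart R`, order-ideal form.**  `M` a line bundle on `C × Spec R`, `s` a
global section, nonzero on every closed fibre of the first chart, with zero scheme disjoint from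
`V(g)`.  Then `B₁ ⧸ ord₁(s)` is a finite projective `R`-module and
`ord₂(s) = r₂⁻¹(ord₁(s) B₁₂)`. -/
theorem chart_chartPoint (M : GluedModule (𝒞.chart R)) (hM : M.IsLineBundle) (s : M.H0)
    (hnz : ∀ 𝔪 : Ideal R, 𝔪.IsMaximal → (s : M.N₁ × M.N₂).1 ∉
      (𝔪.map (algebraMap R (𝒞.chart R).B₁)) • (⊤ : Submodule (𝒞.chart R).B₁ M.N₁))
    (hii : ordIdeal (𝒞.chart R).B₂ (s : M.N₁ × M.N₂).2 ⊔ Ideal.span {(𝒞.chart R).g} = ⊤) :
    Module.Finite R ((𝒞.chart R).B₁ ⧸ ordIdeal (𝒞.chart R).B₁ (s : M.N₁ × M.N₂).1) ∧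
      Module.Projective R ((𝒞.chart R).B₁ ⧸ ordIdeal (𝒞.chart R).B₁ (s : M.N₁ × M.N₂).1) ∧
      ordIdeal (𝒞.chart R).B₂ (s : M.N₁ × M.N₂).2 =
        Ideal.comap (𝒞.chart R).r₂
          (Ideal.map (𝒞.chart R).r₁ (ordIdeal (𝒞.chart R).B₁ (s : M.N₁ × M.N₂).1)) :=
  chartPoint (chart_finite₂ 𝒞 R) (chart_isPolyFree₁ 𝒞 R) (chart_isPrime_map₁ 𝒞 R) M hM _ _
    ((mem_H0 M _).mp s.2) hnz hii

/-- **(Flat) for `𝒞.chart R`, in the form of conditions C1, C2.**  `M` a line bundle, `s` a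
global section with `e(s₁) ∈ Rˣ` for an `ε`-semilinear `e : M₁ → R` (C1-type: the section
generates the `ε`-fibre) and `M₂ = B₂ s₂ + g M₂` (C2).  Then `B₁ ⧸ ord₁(s)` is a finite
projective `R`-module and `ord₂(s) = r₂⁻¹(ord₁(s) B₁₂)`. -/
theorem chart_flat (M : GluedModule (𝒞.chart R)) (hM : M.IsLineBundle) (s : M.H0)
    (e : M.N₁ →ₗ[R] R)
    (he : ∀ (b : (𝒞.chart R).B₁) (n : M.N₁), e (b • n) = 𝒞.epsR R b * e n)
    (hu : IsUnit (e (s : M.N₁ × M.N₂).1))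
    (hC2 : Submodule.span (𝒞.chart R).B₂ {(s : M.N₁ × M.N₂).2} ⊔
      (Ideal.span {(𝒞.chart R).g}) • (⊤ : Submodule (𝒞.chart R).B₂ M.N₂) = ⊤) :
    Module.Finite R ((𝒞.chart R).B₁ ⧸ ordIdeal (𝒞.chart R).B₁ (s : M.N₁ × M.N₂).1) ∧
      Module.Projective R ((𝒞.chart R).B₁ ⧸ ordIdeal (𝒞.chart R).B₁ (s : M.N₁ × M.N₂).1) ∧
      ordIdeal (𝒞.chart R).B₂ (s : M.N₁ × M.N₂).2 =
        Ideal.comap (𝒞.chart R).r₂
          (Ideal.map (𝒞.chart R).r₁ (ordIdeal (𝒞.chart R).B₁ (s : M.N₁ × M.N₂).1)) := by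
  haveI := hM.inv₂
  exact chart_chartPoint 𝒞 M hM s
    (fun 𝔪 h𝔪 => not_mem_smul_top_of_isUnit_eval 𝒞 M e he _ hu 𝔪 h𝔪)
    (ordIdeal_sup_eq_top_of_span_sup _ _ hC2)

/-- **The point of the Hilbert chart, for `𝒞.chart R`.**  In the situation of `chart_chartPoint`,
a finite family `b` of elements of `B₁` which is a basis of every closed fibre of `B₁ ⧸ ord₁(s)`
(elementwise form) is an `R`-basis of `B₁ ⧸ ord₁(s)`. -/
theorem chart_chartPoint_basis (M : GluedModule (𝒞.chart R)) (hM : M.IsLineBundle) (s : M.H0)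
    (hnz : ∀ 𝔪 : Ideal R, 𝔪.IsMaximal → (s : M.N₁ × M.N₂).1 ∉
      (𝔪.map (algebraMap R (𝒞.chart R).B₁)) • (⊤ : Submodule (𝒞.chart R).B₁ M.N₁))
    (hii : ordIdeal (𝒞.chart R).B₂ (s : M.N₁ × M.N₂).2 ⊔ Ideal.span {(𝒞.chart R).g} = ⊤)
    {ι : Type*} [Fintype ι] (b : ι → (𝒞.chart R).B₁)
    (hspan : ∀ 𝔪 : Ideal R, 𝔪.IsMaximal → ∀ y : (𝒞.chart R).B₁, ∃ c : ι → R,
      y - ∑ i, c i • b i ∈ ordIdeal (𝒞.chart R).B₁ (s : M.N₁ × M.N₂).1 ⊔
        𝔪.map (algebraMap R (𝒞.chart R).B₁))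
    (hindep : ∀ 𝔪 : Ideal R, 𝔪.IsMaximal → ∀ c : ι → R,
      ∑ i, c i • b i ∈ ordIdeal (𝒞.chart R).B₁ (s : M.N₁ × M.N₂).1 ⊔
        𝔪.map (algebraMap R (𝒞.chart R).B₁) → ∀ i, c i ∈ 𝔪) :
    ∃ 𝒷 : Module.Basis ι R ((𝒞.chart R).B₁ ⧸ ordIdeal (𝒞.chart R).B₁ (s : M.N₁ × M.N₂).1),
      ∀ i, 𝒷 i = Ideal.Quotient.mk (ordIdeal (𝒞.chart R).B₁ (s : M.N₁ × M.N₂).1) (b i) :=
  chartPoint_basis (chart_finite₂ 𝒞 R) (chart_isPolyFree₁ 𝒞 R) (chart_isPrime_map₁ 𝒞 R) M hM _ _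
    ((mem_H0 M _).mp s.2) hnz hii b hspan hindep

end chart

end Fermat.Agent.S25.ATLAS.DIV.H2868
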