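/-
S25 (Jacobian), algebra side, piece ORDFLAT of helper2868 (route 2.4 "(Flat)", direct proof).

Mathlib-only commutative algebra:

* `injective_lTensor_quotient_of_forall_mem`: elementwise criterion for injectivity of
  `(R ⧸ 𝔪) ⊗ f`;
* `projective_quotient_range_of_maximal`: `f : M → N`, `M` finite, `N` finite projective,
  `f x ∈ 𝔪 N → x ∈ 𝔪 M` for every maximal ideal `𝔪` of `R`  ⟹  `N ⧸ range f` is projective
  (no noetherian hypothesis; the local step is Mathlib's
  `Module.free_of_lTensor_residueField_injective`);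
* `projective_quotient_of_fibrewise`: `B` an `R`-algebra, `I` a finitely generated ideal of `B`,
  `q ∈ I` with `B ⧸ (q)` finite projective over `R`, and `I ∩ 𝔪 B ⊆ 𝔪 I` for every maximal `𝔪`
  ⟹  `B ⧸ I` is a finite projective `R`-module.
-/
import Mathlib

set_option autoImplicit false
set_option linter.style.haveILetI false

universe u v w

namespace Fermat.Agent.S25.ATLAS.DIV.H2868

open TensorProduct

section generic

variable {R : Type u} [CommRing R] {M : Type v} {N : Type w} [AddCommGroup M] [Module R M]
  [AddCommGroup N] [Module R N]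

/-- Elementwise criterion for injectivity of `(R ⧸ 𝔪) ⊗ f`. -/
theorem injective_lTensor_quotient_of_forall_mem (f : M →ₗ[R] N) (𝔪 : Ideal R)
    (h : ∀ x : M, f x ∈ 𝔪 • (⊤ : Submodule R N) → x ∈ 𝔪 • (⊤ : Submodule R M)) :
    Function.Injective (f.lTensor (R ⧸ 𝔪)) := by
  rw [injective_iff_map_eq_zero]
  intro x hx
  obtain ⟨y, rfl⟩ := (quotTensorEquivQuotSMul M 𝔪).symm.surjective x
  obtain ⟨m, rfl⟩ := Submodule.Quotient.mk_surjective _ y
  rw [quotTensorEquivQuotSMul_symm_mk] at hx ⊢
  rw [LinearMap.lTensor_tmul] at hx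
  have h1 : quotTensorEquivQuotSMul N 𝔪 ((1 : R ⧸ 𝔪) ⊗ₜ[R] f m) = 0 := by rw [hx, map_zero]
  rw [quotTensorEquivQuotSMul_mk_one_tmul, Submodule.Quotient.mk_eq_zero] at h1
  have h2 := h m h1
  have h3 : (Submodule.Quotient.mk m : M ⧸ (𝔪 • (⊤ : Submodule R M))) = 0 :=
    (Submodule.Quotient.mk_eq_zero _).mpr h2
  rw [← quotTensorEquivQuotSMul_symm_mk, h3, map_zero]

/-- The residue field of the localisation at a maximal ideal, as an `R`-module, is `R ⧸ 𝔪`. -/
noncomputable def quotEquivResidueField (𝔪 : Ideal R) [𝔪.IsMaximal] :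
    (R ⧸ 𝔪) ≃ₗ[R] IsLocalRing.ResidueField (Localization.AtPrime 𝔪) :=
  { (IsLocalization.AtPrime.equivQuotMaximalIdeal 𝔪 (Localization.AtPrime 𝔪)).toAddEquiv with
    map_smul' := by
      intro r x
      obtain ⟨x, rfl⟩ := Ideal.Quotient.mk_surjective x
      change IsLocalization.AtPrime.equivQuotMaximalIdeal 𝔪 (Localization.AtPrime 𝔪)
          (r • Ideal.Quotient.mk 𝔪 x) =
        r • IsLocalization.AtPrime.equivQuotMaximalIdeal 𝔪 (Localization.AtPrime 𝔪)
          (Ideal.Quotient.mk 𝔪 x)
      rw [Algebra.smul_def, Algebra.smul_def, map_mul]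
      congr 1 }

/-- Compatibility of `cancelBaseChange` with `lTensor`, on elements. -/
theorem cancelBaseChange_lTensor_baseChange' (A : Type u) [CommRing A] [Algebra R A]
    (K : Type u) [CommRing K] [Algebra A K] [Algebra R K] [IsScalarTower R A K]
    (f : M →ₗ[R] N) (x : K ⊗[A] (A ⊗[R] M)) :
    AlgebraTensorModule.cancelBaseChange R A K K N ((f.baseChange A).lTensor K x) =
      f.lTensor K (AlgebraTensorModule.cancelBaseChange R A K K M x) := by
  induction x using TensorProduct.induction_on with
  | zero => simp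
  | add x y hx hy => simp only [map_add, hx, hy]
  | tmul c y =>
    induction y using TensorProduct.induction_on with
    | zero => simp
    | add y z hy hz =>
      simp only [tmul_add, map_add, hy, hz]
    | tmul a m =>
      simp

/-- **Cokernel projective.** `M` finite, `N` finite projective, and `f` injective modulo every
maximal ideal (elementwise form): then `coker f` is projective. -/
theorem projective_quotient_range_of_maximal [Module.Finite R M] [Module.Finite R N]
    [Module.Projective R N] (f : M →ₗ[R] N)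
    (h : ∀ 𝔪 : Ideal R, 𝔪.IsMaximal → ∀ x : M,
      f x ∈ 𝔪 • (⊤ : Submodule R N) → x ∈ 𝔪 • (⊤ : Submodule R M)) :
    Module.Projective R (N ⧸ LinearMap.range f) := by
  have hfpN : Module.FinitePresentation R N := Module.finitePresentation_of_projective R N
  have hfp : Module.FinitePresentation R (N ⧸ LinearMap.range f) :=
    Module.finitePresentation_of_surjective (LinearMap.range f).mkQ (Submodule.mkQ_surjective _)
      (by rw [Submodule.ker_mkQ, LinearMap.range_eq_map]; exact (Module.Finite.fg_top).map f)
  refine Module.projective_of_localization_maximal'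
    (fun P _ => Localization.AtPrime P)
    (fun P _ => Localization.AtPrime P ⊗[R] (N ⧸ LinearMap.range f))
    (fun P _ => TensorProduct.mk R (Localization.AtPrime P) (N ⧸ LinearMap.range f) 1) ?_
  intro I hI
  have hex : Function.Exact (f.baseChange (Localization.AtPrime I))
      ((LinearMap.range f).mkQ.baseChange (Localization.AtPrime I)) := by
    rw [LinearMap.baseChange_eq_ltensor, LinearMap.baseChange_eq_ltensor]
    exact lTensor_exact (Localization.AtPrime I) (LinearMap.exact_map_mkQ_range f)
      (Submodule.mkQ_surjective _)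
  have hsurj : Function.Surjective
      ((LinearMap.range f).mkQ.baseChange (Localization.AtPrime I)) := by
    rw [LinearMap.baseChange_eq_ltensor]
    exact LinearMap.lTensor_surjective (Localization.AtPrime I) (Submodule.mkQ_surjective _)
  have hfreeN : Module.Free (Localization.AtPrime I) (Localization.AtPrime I ⊗[R] N) :=
    Module.free_of_flat_of_isLocalRing
  -- injectivity over the residue field, from injectivity over `R ⧸ I`
  have hK : Function.Injective
      (f.lTensor (IsLocalRing.ResidueField (Localization.AtPrime I))) := by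
    have h0 := injective_lTensor_quotient_of_forall_mem f I (h I hI)
    let e := quotEquivResidueField I
    have hcomm : (f.lTensor (IsLocalRing.ResidueField (Localization.AtPrime I))) ∘ₗ
        (e.toLinearMap.rTensor M) = (e.toLinearMap.rTensor N) ∘ₗ (f.lTensor (R ⧸ I)) := by
      rw [LinearMap.lTensor_comp_rTensor, LinearMap.rTensor_comp_lTensor]
    intro x y hxy
    obtain ⟨x', rfl⟩ := (e.rTensor M).surjective x
    obtain ⟨y', rfl⟩ := (e.rTensor M).surjective y
    have h1 : (e.toLinearMap.rTensor N) (f.lTensor (R ⧸ I) x') =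
        (e.toLinearMap.rTensor N) (f.lTensor (R ⧸ I) y') := by
      have hx := LinearMap.congr_fun hcomm x'
      have hy := LinearMap.congr_fun hcomm y'
      simp only [LinearMap.comp_apply] at hx hy
      rw [← hx, ← hy]
      exact hxy
    have h2 := (e.rTensor N).injective h1
    rw [h0 h2]
  have hinj : Function.Injective ((f.baseChange (Localization.AtPrime I)).lTensor
      (IsLocalRing.ResidueField (Localization.AtPrime I))) := by
    intro x y hxy
    have h1 := congrArg (AlgebraTensorModule.cancelBaseChange R (Localization.AtPrime I)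
      (IsLocalRing.ResidueField (Localization.AtPrime I))
      (IsLocalRing.ResidueField (Localization.AtPrime I)) N) hxy
    rw [cancelBaseChange_lTensor_baseChange', cancelBaseChange_lTensor_baseChange'] at h1
    exact (AlgebraTensorModule.cancelBaseChange R (Localization.AtPrime I)
      (IsLocalRing.ResidueField (Localization.AtPrime I))
      (IsLocalRing.ResidueField (Localization.AtPrime I)) M).injective (hK h1)
  have hfree := Module.free_of_lTensor_residueField_injective
    (f.baseChange (Localization.AtPrime I))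
    ((LinearMap.range f).mkQ.baseChange (Localization.AtPrime I)) hsurj hex hinj
  infer_instance

end generic

section ideal

variable {R : Type u} [CommRing R] {B : Type v} [CommRing B] [Algebra R B]

/-- For a submodule `P`, `𝔪 • ⊤` computed inside `P` is `𝔪 • P`. -/
theorem mem_smul_top_subtype_iff {Q : Type w} [AddCommGroup Q] [Module R Q] (𝔪 : Ideal R)
    (P : Submodule R Q) (x : P) :
    x ∈ 𝔪 • (⊤ : Submodule R P) ↔ (x : Q) ∈ 𝔪 • P := by
  have h : (𝔪 • (⊤ : Submodule R P)).map P.subtype = 𝔪 • P := by
    rw [Submodule.map_smul'', Submodule.map_subtype_top]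
  rw [← h]
  constructor
  · intro hx
    exact Submodule.mem_map_of_mem hx
  · rintro ⟨y, hy, hxy⟩
    have : y = x := Subtype.ext hxy
    rwa [← this]

/-- **(Flat), direct form.**  `I` a finitely generated ideal of the `R`-algebra `B`, `q ∈ I` with
`B ⧸ (q)` finite projective over `R`, and `I ∩ 𝔪 B ⊆ 𝔪 I` for every maximal ideal `𝔪` of `R`.
Then `B ⧸ I` is a finite projective `R`-module. -/
theorem finite_projective_quotient_of_fibrewise (I : Ideal B) (q : B) (hq : q ∈ I) (hI : I.FG)
    [Module.Finite R (B ⧸ Ideal.span {q})] [Module.Projective R (B ⧸ Ideal.span {q})]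
    (hfib : ∀ 𝔪 : Ideal R, 𝔪.IsMaximal → ∀ x ∈ I, x ∈ 𝔪 • (⊤ : Submodule R B) →
      x ∈ 𝔪 • (I.restrictScalars R : Submodule R B)) :
    Module.Finite R (B ⧸ I) ∧ Module.Projective R (B ⧸ I) := by
  have hle : Ideal.span {q} ≤ I := (Ideal.span_singleton_le_iff_mem I).mpr hq
  -- finiteness
  have hfin : Module.Finite R (B ⧸ I) :=
    Module.Finite.of_surjective (Ideal.Quotient.factorₐ R hle).toLinearMap
      (Ideal.Quotient.factor_surjective hle)
  refine ⟨hfin, ?_⟩
  -- the finite projective module `Q' = B ⧸ (q)` and the image `P` of `I`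
  let π : B →ₗ[R] (B ⧸ Ideal.span {q}) := (Ideal.Quotient.mkₐ R (Ideal.span {q})).toLinearMap
  have hπ : ∀ b : B, π b = Ideal.Quotient.mk (Ideal.span {q}) b := fun b => rfl
  have hπsurj : Function.Surjective π := Ideal.Quotient.mk_surjective
  let I' : Ideal (B ⧸ Ideal.span {q}) := I.map (Ideal.Quotient.mk (Ideal.span {q}))
  have hI' : I'.FG := hI.map _
  let P : Submodule R (B ⧸ Ideal.span {q}) := I'.restrictScalars R
  have hmemP : ∀ z : B ⧸ Ideal.span {q}, z ∈ P ↔ ∃ y ∈ I, π y = z := by
    intro z
    change z ∈ I.map (Ideal.Quotient.mk (Ideal.span {q})) ↔ _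
    rw [Ideal.mem_map_iff_of_surjective _ Ideal.Quotient.mk_surjective]
    rfl
  haveI : Module.Finite (B ⧸ Ideal.span {q}) I' := Module.Finite.iff_fg.mpr hI'
  haveI : Module.Finite R I' := Module.Finite.trans (B ⧸ Ideal.span {q}) I'
  haveI : Module.Finite R P :=
    Module.Finite.equiv ((Submodule.restrictScalarsEquiv R (B ⧸ Ideal.span {q})
      (B ⧸ Ideal.span {q}) I').restrictScalars R).symm
  have hproj : Module.Projective R ((B ⧸ Ideal.span {q}) ⧸ LinearMap.range P.subtype) := by
    refine projective_quotient_range_of_maximal P.subtype ?_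
    intro 𝔪 h𝔪 x hx
    rw [mem_smul_top_subtype_iff]
    rw [Submodule.coe_subtype] at hx
    obtain ⟨y, hyI, hy⟩ := (hmemP x).mp x.2
    -- lift the membership `x ∈ 𝔪 Q'` to `B`
    have hx' : (x : B ⧸ Ideal.span {q}) ∈ (𝔪 • (⊤ : Submodule R B)).map π := by
      rw [Submodule.map_smul'', Submodule.map_top, LinearMap.range_eq_top.mpr hπsurj]
      exact hx
    obtain ⟨w, hw, hwx⟩ := hx'
    have hyw : y - w ∈ Ideal.span {q} := by
      rw [← Ideal.Quotient.eq]
      rw [← hπ, ← hπ, hy, hwx]
    have hwI : w ∈ I := by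
      have : w = y - (y - w) := by ring
      rw [this]
      exact I.sub_mem hyI (hle hyw)
    have hw' := hfib 𝔪 h𝔪 w hwI hw
    have : (x : B ⧸ Ideal.span {q}) ∈ (𝔪 • (I.restrictScalars R : Submodule R B)).map π := by
      rw [← hwx]
      exact Submodule.mem_map_of_mem hw'
    rw [Submodule.map_smul''] at this
    refine Submodule.smul_mono (le_refl 𝔪) ?_ this
    rintro z ⟨y', hy', rfl⟩
    exact (hmemP _).mpr ⟨y', hy', rfl⟩
  -- identify the cokernel with `B ⧸ I`
  have hrange : LinearMap.range P.subtype = P := Submodule.range_subtype P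
  let g : B →ₗ[R] ((B ⧸ Ideal.span {q}) ⧸ P) := P.mkQ ∘ₗ π
  have hgsurj : Function.Surjective g := (Submodule.mkQ_surjective P).comp hπsurj
  have hgker : LinearMap.ker g = I.restrictScalars R := by
    ext b
    rw [LinearMap.mem_ker, LinearMap.comp_apply, Submodule.mkQ_apply,
      Submodule.Quotient.mk_eq_zero, hmemP, Submodule.restrictScalars_mem]
    constructor
    · rintro ⟨y, hyI, hy⟩
      have hyb : y - b ∈ Ideal.span {q} := by
        rw [← Ideal.Quotient.eq, ← hπ, ← hπ, hy]
      have : b = y - (y - b) := by ring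
      rw [this]
      exact I.sub_mem hyI (hle hyb)
    · intro hb
      exact ⟨b, hb, rfl⟩
  let e : (B ⧸ I) ≃ₗ[R] ((B ⧸ Ideal.span {q}) ⧸ P) :=
    (Submodule.Quotient.restrictScalarsEquiv R I).symm ≪≫ₗ
      (Submodule.quotEquivOfEq _ _ hgker.symm) ≪≫ₗ
      (LinearMap.quotKerEquivOfSurjective g hgsurj)
  rw [hrange] at hproj
  exact Module.Projective.of_equiv e.symm

end ideal

end Fermat.Agent.S25.ATLAS.DIV.H2868
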